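import Fermat.Agent.EC.Frobenius.Trace

/-!
The versions for a curve over `ℚ` with an integral model.
-/

noncomputable section

open Polynomial WeierstrassCurve WeierstrassCurve.Affine.Point Fermat.Agent.Isogeny
open scoped WeierstrassCurve.Affine

namespace Fermat.Agent.EC.Frobenius

local notation "ℚbar" => AlgebraicClosure ℚ
local notation "Γ" => AlgebraicClosure ℚ ≃ₐ[ℚ] AlgebraicClosure ℚ

/-- A Galois equivariant linear isomorphism on torsion attached to a change of equation. -/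
theorem exists_equivariant_linearEquiv {E E' : WeierstrassCurve ℚ} (D : VariableChange ℚ)
    (h : D • E = E') (ℓ : ℕ) :
    ∃ e : Submodule.torsionBy ℤ (E'⁄ℚbar).Point ℓ ≃ₗ[ZMod ℓ]
        Submodule.torsionBy ℤ (E⁄ℚbar).Point ℓ,
      ∀ σ : Γ, galoisRepModuleEnd (K := ℚbar) ℚ E.toAffine ℓ σ =
        e.conj (galoisRepModuleEnd (K := ℚbar) ℚ E'.toAffine ℓ σ) := by
  obtain ⟨e, he⟩ := EC.Reduction.exists_equivariant_addEquiv (K := ℚbar) D h
  have hmem : ∀ {P}, P ∈ Submodule.torsionBy ℤ (E'⁄ℚbar).Point ℓ →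
      e P ∈ Submodule.torsionBy ℤ (E⁄ℚbar).Point ℓ := fun {P} hP => by
    rw [Submodule.mem_torsionBy_iff] at hP ⊢
    rw [← map_zsmul, hP, _root_.map_zero]
  have hmem' : ∀ {P}, P ∈ Submodule.torsionBy ℤ (E⁄ℚbar).Point ℓ →
      e.symm P ∈ Submodule.torsionBy ℤ (E'⁄ℚbar).Point ℓ := fun {P} hP => by
    rw [Submodule.mem_torsionBy_iff] at hP ⊢
    rw [← map_zsmul, hP, _root_.map_zero]
  let e₁ : Submodule.torsionBy ℤ (E'⁄ℚbar).Point ℓ ≃+ Submodule.torsionBy ℤ (E⁄ℚbar).Point ℓ :=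
    { toFun := fun P => ⟨e P.1, hmem P.2⟩
      invFun := fun P => ⟨e.symm P.1, hmem' P.2⟩
      left_inv := fun P => Subtype.ext (e.symm_apply_apply _)
      right_inv := fun P => Subtype.ext (e.apply_symm_apply _)
      map_add' := fun P Q => Subtype.ext (map_add e P.1 Q.1) }
  refine ⟨e₁.toLinearEquiv (fun c x => ZMod.map_smul e₁.toAddMonoidHom c x), fun σ => ?_⟩
  refine LinearMap.ext fun x => Subtype.ext ?_
  change σ • x.1 = e (σ • e.symm x.1)
  rw [he, e.apply_symm_apply]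

variable {E : WeierstrassCurve ℚ} {W : WeierstrassCurve ℤ} {q : ℕ} {ℓ : ℕ} [Fact ℓ.Prime]
  {A : ValuationSubring ℚbar} {σ : Γ}

/-- Trace, determinant and characteristic polynomial of Frobenius on `E[ℓ]` at a prime of good
reduction of an integral model. -/
theorem trace_det_charpoly_of_isIntegralModelOf (hW : W.IsIntegralModelOf E) (hq : q.Prime)
    (hgood : W.IsGoodPrimeFor q) (hℓ : ℓ ≠ q) (hA : A.LiesOverPrime q)
    (hσ : A.IsFrobeniusAt σ q)
    [Module.Finite (ZMod ℓ) (Submodule.torsionBy ℤ (E⁄ℚbar).Point ℓ)] :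
    galoisTrace (K := ℚbar) ℚ E.toAffine ℓ σ = (W.apOfModel q : ZMod ℓ) ∧
    LinearMap.det (galoisRepModuleEnd (K := ℚbar) ℚ E.toAffine ℓ σ) = (q : ZMod ℓ) ∧
    LinearMap.charpoly (galoisRepModuleEnd (K := ℚbar) ℚ E.toAffine ℓ σ) =
      X ^ 2 - C (W.apOfModel q : ZMod ℓ) * X + C (q : ZMod ℓ) := by
  obtain ⟨D, hD⟩ := hW
  obtain ⟨e, he⟩ := exists_equivariant_linearEquiv D hD ℓ
  have : Module.Finite (ZMod ℓ)
      (Submodule.torsionBy ℤ ((W.map (Int.castRingHom ℚ))⁄ℚbar).Point ℓ) :=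
    Module.Finite.equiv e.symm
  obtain ⟨h1, h2, h3⟩ := trace_det_charpoly hq hgood hℓ hA hσ
  rw [galoisTrace, he σ]
  refine ⟨by rw [LinearMap.trace_conj']; exact h1, ?_, ?_⟩
  · rw [LinearEquiv.conj_apply, LinearMap.comp_assoc]
    exact (LinearMap.det_conj _ e).trans h2
  · exact (LinearEquiv.charpoly_conj e _).trans h3

/-- The trace alone. -/
theorem galoisTrace_eq_apOfModel [E.IsElliptic] (hW : W.IsIntegralModelOf E) (hq : q.Prime)
    (hgood : W.IsGoodPrimeFor q) (hℓ : ℓ ≠ q) (hA : A.LiesOverPrime q)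
    (hσ : A.IsFrobeniusAt σ q) :
    galoisTrace (K := ℚbar) ℚ E.toAffine ℓ σ = (W.apOfModel q : ZMod ℓ) :=
  haveI := moduleFinite_torsion E ℓ
  (trace_det_charpoly_of_isIntegralModelOf hW hq hgood hℓ hA hσ).1

/-- An integral equation is an integral model of its base change to `ℚ`. -/
theorem isIntegralModelOf_map (W : WeierstrassCurve ℤ) :
    W.IsIntegralModelOf (W.map (Int.castRingHom ℚ)) :=
  ⟨1, one_smul _ _⟩

end Fermat.Agent.EC.Frobenius
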