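import Fermat.Agent.EC.Frobenius.Model
import Fermat.Agent.Density.Reps
import Fermat.Agent.Gal.Frobenius
import Fermat.Prelude.Def_FreyPackage_DetCyclotomic

/-!
The representation on `E[ℓ]` has finite level and cyclotomic determinant.
-/

noncomputable section

open Polynomial WeierstrassCurve WeierstrassCurve.Affine.Point Fermat.Agent.Isogeny
open scoped WeierstrassCurve.Affine

namespace Fermat.Agent.EC.Frobenius

local notation "ℚbar" => AlgebraicClosure ℚ
local notation "Γ" => AlgebraicClosure ℚ ≃ₐ[ℚ] AlgebraicClosure ℚ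

/-- The Galois action on the finite group of `n`-torsion points has finite level. -/
theorem galoisFactorsThroughFiniteLevel_torsion (E : WeierstrassCurve ℚ) [E.IsElliptic] {n : ℕ}
    (hn : n ≠ 0) :
    GaloisFactorsThroughFiniteLevel (galoisRepModuleEnd (K := ℚbar) ℚ E.toAffine n) := by
  have := Fermat.Agent.Gal.isAlgebraic_rat_qbar
  have hc := card_torsionBy_baseChange (K := ℚbar) E (n := n) (Nat.cast_ne_zero.mpr hn)
  have hfin : Finite (Submodule.torsionBy ℤ (E⁄ℚbar).Point n) :=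
    Nat.finite_of_card_ne_zero (by rw [hc]; exact pow_ne_zero 2 hn)
  let crd : (E⁄ℚbar).Point → Set ℚbar := fun P => match P with
    | .zero => ∅
    | .some x y _ => {x, y}
  have hcrd : ∀ P, (crd P).Finite := fun P => by
    cases P <;> simp [crd]
  let S : Set ℚbar := ⋃ P : Submodule.torsionBy ℤ (E⁄ℚbar).Point n, crd P.1
  have hS : S.Finite := Set.finite_iUnion fun P => hcrd P.1
  have : Finite S := hS.to_subtype
  refine ⟨IntermediateField.adjoin ℚ S,
    IntermediateField.finiteDimensional_adjoin fun x _ =>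
      (Algebra.IsAlgebraic.isAlgebraic x).isIntegral,
    fun σ hσ => LinearMap.ext fun P => Subtype.ext ?_⟩
  have hmem : ∀ x ∈ crd P.1, σ x = x := fun x hx =>
    hσ x (IntermediateField.subset_adjoin ℚ S (Set.mem_iUnion.mpr ⟨P, hx⟩))
  change σ • P.1 = P.1
  generalize P.1 = Q at hmem ⊢
  rcases Q with _ | ⟨x, y, h⟩
  · rfl
  · rw [algEquiv_smul_def, map_some, Affine.Point.some.injEq]
    exact ⟨hmem x (Or.inl rfl), hmem y (Or.inr rfl)⟩

theorem coe_galoisRepDet (E : WeierstrassCurve ℚ) (n : ℕ) (σ : Γ) :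
    ((galoisRepDet (S := ℚ) (K := ℚbar) E.toAffine n σ : (ZMod n)ˣ) : ZMod n) =
      LinearMap.det (galoisRepModuleEnd (K := ℚbar) ℚ E.toAffine n σ) := by
  rw [galoisRepDet_apply, LinearEquiv.coe_det]
  congr 1

/-- The determinant of the representation on `E[ℓ]` is the mod `ℓ` cyclotomic character. -/
theorem galoisRepDetEqCyclotomic_of_isIntegralModelOf (E : WeierstrassCurve ℚ) [E.IsElliptic]
    (W : WeierstrassCurve ℤ) (hΔ : W.Δ ≠ 0) (hW : W.IsIntegralModelOf E) (ℓ : ℕ) [Fact ℓ.Prime]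
    [NeZero ℓ] (hn : Nat.card (rootsOfUnity ℓ ℚbar) = ℓ) :
    GaloisRepDetEqCyclotomic (K := ℚbar) ℚ E.toAffine ℓ hn := by
  have := Fermat.Agent.Gal.isAlgebraic_rat_qbar
  have := moduleFinite_torsion E ℓ
  have hℓ0 := (Fact.out : ℓ.Prime).ne_zero
  let χ₁ : Γ →* (ZMod ℓ)ˣ := galoisRepDet (S := ℚ) (K := ℚbar) E.toAffine ℓ
  let χ₂ : Γ →* (ZMod ℓ)ˣ :=
    (modularCyclotomicCharacter ℚbar hn).comp
      { toFun := fun σ => (σ : ℚbar ≃+* ℚbar), map_one' := rfl, map_mul' := fun _ _ => rfl }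
  obtain ⟨L, hL, hL'⟩ := galoisFactorsThroughFiniteLevel_torsion E hℓ0
  have h1 : GaloisFactorsThroughFiniteLevel χ₁ := ⟨L, hL, fun σ hσ => Units.ext (by
    rw [coe_galoisRepDet, hL' σ hσ, map_one, Units.val_one])⟩
  have h2 : GaloisFactorsThroughFiniteLevel χ₂ := by
    have : Finite (rootsOfUnity ℓ ℚbar) := Nat.finite_of_card_ne_zero (by rw [hn]; exact hℓ0)
    let S : Set ℚbar := Set.range fun t : rootsOfUnity ℓ ℚbar => ((t : ℚbarˣ) : ℚbar)
    have : Finite S := (Set.finite_range _).to_subtype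
    refine ⟨IntermediateField.adjoin ℚ S,
      IntermediateField.finiteDimensional_adjoin
        fun x _ => (Algebra.IsAlgebraic.isAlgebraic x).isIntegral, fun σ hσ => Units.ext ?_⟩
    symm
    refine modularCyclotomicCharacter.unique ℚbar hn _ fun t ht => ?_
    have : Fact (1 < ℓ) := ⟨(Fact.out : ℓ.Prime).one_lt⟩
    rw [Units.val_one, ZMod.val_one, pow_one]
    exact hσ _ (IntermediateField.subset_adjoin ℚ S ⟨⟨t, ht⟩, rfl⟩)
  have key : χ₁ = χ₂ := by
    refine Density.monoidHom_eq_of_forall_frobenius h1 h2 ({ℓ} ∪ {q | (q : ℤ) ∣ W.Δ})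
      ((Set.finite_singleton ℓ).union ?_) fun q hq hqS A hA τ hτ => ?_
    · refine (Set.finite_Iic W.Δ.natAbs).subset fun q hq => ?_
      exact Nat.le_of_dvd (Int.natAbs_pos.mpr hΔ) (Int.natCast_dvd.mp hq)
    simp only [Set.mem_union, Set.mem_singleton_iff, Set.mem_ofPred_eq, not_or] at hqS
    obtain ⟨-, hdet, -⟩ :=
      trace_det_charpoly_of_isIntegralModelOf hW hq hqS.2 (Ne.symm hqS.1) hA hτ
    apply Units.ext
    rw [coe_galoisRepDet, hdet]
    refine modularCyclotomicCharacter.unique ℚbar hn _ fun t ht => ?_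
    have htt : (t : ℚbar) ^ ℓ = 1 := by
      rw [← Units.val_pow_eq_pow_val, (mem_rootsOfUnity ℓ t).mp ht, Units.val_one]
    have hqℓ : ¬ q ∣ ℓ := fun h =>
      hqS.1 ((Nat.prime_dvd_prime_iff_eq hq Fact.out).mp h)
    change τ (t : ℚbar) = _
    rw [Fermat.Agent.Gal.apply_rootOfUnity_of_isFrobeniusAt hτ hq hA hqℓ htt, ZMod.val_natCast]
    exact pow_eq_pow_mod q htt
  exact fun σ => DFunLike.congr_fun key σ

/-- The version for an integral equation. -/
theorem galoisRepDetEqCyclotomic_intModel (W : WeierstrassCurve ℤ) (hΔ : W.Δ ≠ 0) (ℓ : ℕ)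
    [Fact ℓ.Prime] [NeZero ℓ] (hn : Nat.card (rootsOfUnity ℓ ℚbar) = ℓ) :
    GaloisRepDetEqCyclotomic (K := ℚbar) ℚ (W.map (Int.castRingHom ℚ)).toAffine ℓ hn :=
  haveI := isElliptic_map_rat hΔ
  galoisRepDetEqCyclotomic_of_isIntegralModelOf _ W hΔ (isIntegralModelOf_map W) ℓ hn

end Fermat.Agent.EC.Frobenius
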