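import Fermat.Agent.EC.Isogeny.FiniteField
import Fermat.Agent.EC.Isogeny.TorsionCard
import Fermat.Agent.EC.Reduction.Torsion
import Fermat.Agent.EC.Reduction.VariableChange
import Fermat.Agent.Gal.Residue
import Fermat.Prelude.Def_GaloisRep_Residual

/-!
At a prime of good reduction a Frobenius element acts on `E[ℓ]` with trace `a_q` and
determinant `q`.
-/

noncomputable section

open Polynomial WeierstrassCurve WeierstrassCurve.Affine.Point Fermat.Agent.Isogeny
open scoped WeierstrassCurve.Affine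

namespace Fermat.Agent.EC.Frobenius

local notation "ℚbar" => AlgebraicClosure ℚ
local notation "Γ" => AlgebraicClosure ℚ ≃ₐ[ℚ] AlgebraicClosure ℚ

theorem isElliptic_map_rat {W : WeierstrassCurve ℤ} (hΔ : W.Δ ≠ 0) :
    (W.map (Int.castRingHom ℚ)).IsElliptic :=
  ⟨by rw [map_Δ, isUnit_iff_ne_zero]; simpa using hΔ⟩

theorem moduleFinite_torsion (E : WeierstrassCurve ℚ) [E.IsElliptic] (ℓ : ℕ) [Fact ℓ.Prime] :
    Module.Finite (ZMod ℓ) (Submodule.torsionBy ℤ (E⁄ℚbar).Point ℓ) := by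
  have hc := card_torsionBy_baseChange (K := ℚbar) E (n := ℓ)
    (Nat.cast_ne_zero.mpr (Fact.out : ℓ.Prime).ne_zero)
  have : Finite (Submodule.torsionBy ℤ (E⁄ℚbar).Point ℓ) :=
    Nat.finite_of_card_ne_zero (by rw [hc]; exact pow_ne_zero 2 (Fact.out : ℓ.Prime).ne_zero)
  exact Module.Finite.of_finite

variable {W : WeierstrassCurve ℤ} {q : ℕ} {ℓ : ℕ} [Fact ℓ.Prime]
  {A : ValuationSubring ℚbar} {σ : Γ}

/-- Main theorem, for an integral Weierstrass equation. -/
theorem trace_det_charpoly (hq : q.Prime) (hgood : W.IsGoodPrimeFor q) (hℓ : ℓ ≠ q)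
    (hA : A.LiesOverPrime q) (hσ : A.IsFrobeniusAt σ q)
    [Module.Finite (ZMod ℓ) (Submodule.torsionBy ℤ ((W.map (Int.castRingHom ℚ))⁄ℚbar).Point ℓ)] :
    galoisTrace (K := ℚbar) ℚ (W.map (Int.castRingHom ℚ)).toAffine ℓ σ = (W.apOfModel q : ZMod ℓ) ∧
    LinearMap.det
        (galoisRepModuleEnd (K := ℚbar) ℚ (W.map (Int.castRingHom ℚ)).toAffine ℓ σ) =
      (q : ZMod ℓ) ∧
    LinearMap.charpoly
        (galoisRepModuleEnd (K := ℚbar) ℚ (W.map (Int.castRingHom ℚ)).toAffine ℓ σ) =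
      X ^ 2 - C (W.apOfModel q : ZMod ℓ) * X + C (q : ZMod ℓ) := by
  classical
  have hΔ : W.Δ ≠ 0 := fun h => hgood (by rw [h]; exact dvd_zero _)
  set π := IsLocalRing.residue A
  have : IsAlgClosed (IsLocalRing.ResidueField A) := Fermat.Agent.Gal.isAlgClosed_residueField A
  have : Fact q.Prime := ⟨hq⟩
  have hchar := EC.Reduction.charP_of_liesOverPrime π hq hA
  have hΔ₀ := EC.Reduction.Δ_intModel_ne_zero π hq hA hgood
  let f := ZMod.castHom (dvd_refl q) (IsLocalRing.ResidueField A)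
  have hW₀ : (W.reductionMod q).map f = W.map (Int.castRingHom (IsLocalRing.ResidueField A)) := by
    rw [reductionMod, WeierstrassCurve.map_map, RingHom.eq_intCast' (f.comp _)]
  have hell : ((W.reductionMod q).map f).IsElliptic := ⟨by
    rw [isUnit_iff_ne_zero, hW₀]; exact hΔ₀⟩
  have hred := EC.Reduction.reduces_intModel (K := ℚbar) W π
  rw [← hW₀] at hred hΔ₀
  have hℓk : (ℓ : IsLocalRing.ResidueField A) ≠ 0 :=
    EC.Reduction.natCast_ne_zero_of_liesOverPrime π hq hA
      fun h => hℓ ((Nat.prime_dvd_prime_iff_eq hq Fact.out).mp h).symm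
  have := isElliptic_map_rat hΔ
  have hM := card_torsionBy_baseChange (K := ℚbar) (W.map (Int.castRingHom ℚ)) (n := ℓ)
    (Nat.cast_ne_zero.mpr (Fact.out : ℓ.Prime).ne_zero)
  let j := (Submodule.subtype _).toAddMonoidHom.comp (EC.Reduction.redTorsion hred hΔ₀ ℓ)
  have hj : Function.Injective j :=
    Subtype.val_injective.comp (EC.Reduction.redTorsion_injective hred hΔ₀ hℓk)
  have hW := map_iterateFrobenius_zmod (W.reductionMod q) f
  have hf : ∀ m, j (galoisRepModuleEnd (K := ℚbar) ℚ (W.map (Int.castRingHom ℚ)).toAffine ℓ σ m) =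
      frobPt ((W.reductionMod q).map f) q 1 hW (j m) := by
    intro m
    change EC.Reduction.red π _ (σ • (m : ((W.map (Int.castRingHom ℚ))⁄ℚbar).Point)) =
      frobPt ((W.reductionMod q).map f) q 1 hW (EC.Reduction.red π _ _)
    have hm := EC.Reduction.redTo_red hred hΔ₀ (m : ((W.map (Int.castRingHom ℚ))⁄ℚbar).Point)
    generalize (m : ((W.map (Int.castRingHom ℚ))⁄ℚbar).Point) = P at hm ⊢
    generalize EC.Reduction.red π ((W.reductionMod q).map f) P = Q at hm ⊢
    rcases P with _ | ⟨x, y, hP⟩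
    · obtain rfl : Q = 0 := EC.Reduction.RedTo.unique hm EC.Reduction.RedTo.zero
      rw [← Affine.Point.zero_def, smul_zero, _root_.map_zero]
      exact EC.Reduction.red_eq EC.Reduction.RedTo.zero
    rcases hm with ⟨hx, rfl⟩ | ⟨x₀, y₀, h₀, hx, hy, rfl⟩
    · rw [_root_.map_zero]
      exact EC.Reduction.red_eq
        (EC.Reduction.redTo_smul_zero hσ.mem_decompositionSubgroup
          (EC.Reduction.RedTo.of_notMem hx))
    · simp only [frobPt, endoPoint_some, iterateFrobenius_def, pow_one]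
      exact EC.Reduction.red_eq (EC.Reduction.redTo_smul_of_isFrobeniusAt hσ hx hy)
  obtain ⟨htr, hdet, hcp⟩ :=
    trace_det_frob ((W.reductionMod q).map f) q 1 hW one_ne_zero hM j hj _ hf
  rw [frobTrace_eq_traceOfFrobenius, pow_one] at *
  exact ⟨htr, hdet, hcp⟩

end Fermat.Agent.EC.Frobenius
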